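/-
M1 / chapter ES (E-side), brick (E1)-assembly (helper58).

For an odd prime `p` and a valuation subring `A` of `ℚ̄` over `p`: if `L ⊊ W[p]` is a submodule
with `(τ - 1) W[p] ⊆ L` for every `τ` in the inertia group `I_A`, and `W[p]` is irreducible, then
`L` is a line on which `I_A` acts through the mod `p` cyclotomic character.

Only input: `det ρ_{W,p} = χ_p` (`DetCyclo47.det_rho`, from the Eichler--Shimura relation) and the
ramification of `ℚ(ζ_p)` at `p` (`InertiaCyclo69`).  No Weil pairing, no formal groups.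

For the Frey curve, `L := FreyE1.V1 P A` (the `p`-torsion in the kernel of reduction) satisfies
the hypothesis `(τ - 1) E[p] ⊆ L` by `FreyE1.close_at_p`; the remaining input `V1 ≠ ⊤` (true iff
the reduction at `p` is not supersingular) is a hypothesis here.
-/
import Mathlib
import Fermat.Agent.S52.C.DetCyclo47
import Fermat.Agent.Lib.InertiaCyclo69
import Fermat.Agent.S13.FreyE1
import Fermat.Agent.Frey.IntModel

set_option autoImplicit false

open WeierstrassCurve WeierstrassCurve.Affine WeierstrassCurve.Affine.Point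

namespace Fermat.Agent.M1.ESide.ChiLine58

/-! ### Linear algebra on a plane -/

section LinAlg

variable {F : Type*} [Field F] {V : Type*} [AddCommGroup V] [Module F V]

/-- A proper nonzero subspace of a plane is spanned by one nonzero vector. -/
theorem exists_span_singleton_eq (hV : Module.finrank F V = 2) (L : Submodule F V)
    (hbot : L ≠ ⊥) (htop : L ≠ ⊤) : ∃ v₀ : V, v₀ ≠ 0 ∧ L = Submodule.span F {v₀} := by
  have hfin : Module.Finite F V := Module.finite_of_finrank_pos (by rw [hV]; norm_num)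
  have hle : Module.finrank F L ≤ 2 := hV ▸ Submodule.finrank_le L
  have h0 : Module.finrank F L ≠ 0 := fun h => hbot (Submodule.finrank_eq_zero.mp h)
  have h2 : Module.finrank F L ≠ 2 := fun h =>
    htop (Submodule.eq_top_of_finrank_eq (h.trans hV.symm))
  have h1 : Module.finrank F L = 1 := by omega
  obtain ⟨⟨v, hvL⟩, hv0, hspan⟩ := finrank_eq_one_iff'.mp h1
  refine ⟨v, fun h => hv0 (Subtype.ext h), le_antisymm (fun w hw => ?_) ?_⟩
  · obtain ⟨c, hc⟩ := hspan ⟨w, hw⟩
    rw [Submodule.mem_span_singleton]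
    exact ⟨c, congrArg Subtype.val hc⟩
  · rw [Submodule.span_le, Set.singleton_subset_iff]
    exact hvL

/-- An endomorphism `f` of a plane with `(f - 1) V` inside a line `L` acts on `L` through its
determinant. -/
theorem apply_eq_det_smul (hV : Module.finrank F V = 2) (L : Submodule F V)
    (hbot : L ≠ ⊥) (htop : L ≠ ⊤) (f : V →ₗ[F] V) (hf : ∀ x, f x - x ∈ L) :
    ∀ v ∈ L, f v = LinearMap.det f • v := by
  obtain ⟨v₀, hv₀, rfl⟩ := exists_span_singleton_eq hV L hbot htop
  obtain ⟨e, he⟩ := Submodule.mem_span_singleton.mp (hf v₀)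
  have hd : f v₀ = (e + 1) • v₀ := by
    rw [add_smul, one_smul, he]; abel
  have hL : ∀ v ∈ Submodule.span F {v₀}, f v = (e + 1) • v := by
    intro v hv
    obtain ⟨c, rfl⟩ := Submodule.mem_span_singleton.mp hv
    rw [map_smul, hd, smul_comm]
  suffices hdet : LinearMap.det f = e + 1 by
    intro v hv; rw [hdet]; exact hL v hv
  have hrel : f * f - (1 + (e + 1)) • f + (e + 1) • (1 : V →ₗ[F] V) = 0 := by
    ext x
    have hx := hL (f x - x) (hf x)
    rw [map_sub, smul_sub] at hx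
    simp only [LinearMap.add_apply, LinearMap.sub_apply, Module.End.mul_apply,
      LinearMap.smul_apply, Module.End.one_apply, LinearMap.zero_apply, add_smul, one_smul]
    have : f (f x) = f x + ((e • f x + f x) - (e • x + x)) := by
      rw [add_smul, add_smul, one_smul, one_smul] at hx
      rw [← hx]; abel
    rw [this]; abel
  by_cases hns : ∃ c : F, f = c • (1 : V →ₗ[F] V)
  · obtain ⟨c, hc⟩ := hns
    obtain ⟨x, hx⟩ : ∃ x, x ∉ Submodule.span F {v₀} := by
      by_contra h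
      push Not at h
      exact htop (Submodule.eq_top_iff'.mpr h)
    have hcx : (c - 1) • x ∈ Submodule.span F {v₀} := by
      have := hf x
      rw [hc] at this
      simpa [sub_smul] using this
    have hc1 : c = 1 := by
      by_contra hne
      exact hx ((Submodule.smul_mem_iff _ (sub_ne_zero.mpr hne)).mp hcx)
    have hf1 : f = 1 := by rw [hc, hc1, one_smul]
    have he0 : e = 0 := by
      have h1 := hd
      rw [hf1, Module.End.one_apply, add_smul, one_smul] at h1
      have h2 : e • v₀ = 0 := by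
        have : v₀ + 0 = e • v₀ + v₀ := by rw [add_zero]; exact h1
        have h3 : v₀ + 0 = v₀ + e • v₀ := by rw [this, add_comm]
        exact (add_left_cancel h3).symm
      rcases smul_eq_zero.mp h2 with h | h
      · exact h
      · exact absurd h hv₀
    rw [hf1, he0, zero_add]
    exact map_one _
  · exact Fermat.Agent.S52.C.DetCyclo47.det_eq_of_rel hV f (1 + (e + 1)) (e + 1) hrel hns

end LinAlg

/-! ### The `χ`-line in `W[p]` -/

open Fermat.Agent.ES.Q58.TraceCong20 (RelQbar)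
open Fermat.Agent.S52.TopWiring84 (Tors finrank_tors nontrivial_tors)
open Fermat.Agent.S52.C.DetCyclo47 (IsCycloExp rho rho_apply det_rho exists_not_isScalarOn)

local notation "Qb" => AlgebraicClosure ℚ
local notation "GQ" => (AlgebraicClosure ℚ ≃ₐ[ℚ] AlgebraicClosure ℚ)

section General

variable {W : WeierstrassCurve ℤ} {p : ℕ} [hp : Fact p.Prime]

/-- An inertia element at `A ∣ p` acting on `μ_p` by squaring (so `χ_p(τ₀) = 2 ≠ 1`). -/
theorem exists_inertia_two (hp2 : p ≠ 2) {A : ValuationSubring Qb} (hA : A.LiesOverPrime p) :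
    ∃ τ₀ ∈ A.inertiaSubgroupIn ℚ, IsCycloExp p τ₀ 2 := by
  have h2 : Nat.Coprime 2 p := by
    rw [Nat.coprime_comm, Nat.Prime.coprime_iff_not_dvd hp.out]
    intro hdvd
    exact hp2 ((Nat.prime_dvd_prime_iff_eq hp.out Nat.prime_two).mp hdvd)
  obtain ⟨σ, hσI, hσ⟩ :=
    Fermat.Agent.Lib.InertiaCyclo69.exists_mem_inertia_forall_apply_eq_pow hp.out hA 1 h2
  exact ⟨σ, hσI, fun ζ hζ => hσ ζ (by rw [pow_one]; exact hζ)⟩

theorem two_ne_one_zmod : ((2 : ℕ) : ZMod p) ≠ 1 := by
  intro h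
  have h1 : ((1 : ℕ) : ZMod p) = 0 := by
    have : ((2 : ℕ) : ZMod p) = ((1 : ℕ) : ZMod p) + 1 := by push_cast; norm_num
    rw [this] at h
    have h3 : ((1 : ℕ) : ZMod p) + 1 = 0 + 1 := by rw [zero_add]; exact h
    exact add_right_cancel h3
  rw [ZMod.natCast_eq_zero_iff] at h1
  exact hp.out.one_lt.ne' (Nat.dvd_one.mp h1)

/-- **The `χ`-line.**  A proper submodule `L` of an irreducible `W[p]` receiving `(τ - 1) W[p]`
for all `τ ∈ I_A` (`A ∣ p`) is nonzero, and `I_A` acts on it through the cyclotomic character. -/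
theorem chi_of_close (hΔ : W.Δ ≠ 0) (hrel : RelQbar W) (hp2 : p ≠ 2)
    (hirr : W.ModRepIsIrreducible p) {A : ValuationSubring Qb} (hA : A.LiesOverPrime p)
    (L : Submodule (ZMod p) (Tors W p)) (htop : L ≠ ⊤)
    (hclose : ∀ τ ∈ A.inertiaSubgroupIn ℚ, ∀ x : Tors W p, τ • x - x ∈ L) :
    L ≠ ⊥ ∧ ∀ τ ∈ A.inertiaSubgroupIn ℚ, ∀ c : ℕ, IsCycloExp p τ c →
      ∀ v ∈ L, τ • v = (c : ZMod p) • v := by
  have hns := exists_not_isScalarOn hp2 hΔ hirr
  have hV := finrank_tors (W := W) hΔ hp2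
  have hbot : L ≠ ⊥ := by
    rintro rfl
    obtain ⟨τ₀, hτ₀, hc⟩ := exists_inertia_two hp2 hA
    have hdet := det_rho hΔ hrel hp2 hns τ₀ hc
    have hone : rho W p τ₀ = 1 := by
      ext x
      have := hclose τ₀ hτ₀ x
      rw [Submodule.mem_bot, sub_eq_zero] at this
      rw [rho_apply, Module.End.one_apply, this]
    rw [hone, map_one] at hdet
    exact two_ne_one_zmod hdet.symm
  refine ⟨hbot, fun τ hτ c hc v hv => ?_⟩
  have h1 := apply_eq_det_smul hV L hbot htop (rho W p τ) (fun x => hclose τ hτ x) v hv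
  rw [det_rho hΔ hrel hp2 hns τ hc, rho_apply] at h1
  exact h1

end General

/-! ### Statement (E1) and the Frey curve -/

/-- **(E1)** for a curve `W'` over `ℚ`, a prime `p` and a place `A` of `ℚ̄`: a line `L` in
`W'[p]` such that inertia at `A` acts trivially on `W'[p] / L` and through the cyclotomic
character on `L`. -/
def HasChiLine (W' : WeierstrassCurve ℚ) (p : ℕ) (A : ValuationSubring Qb) : Prop :=
  ∃ L : Submodule (ZMod p) (Submodule.torsionBy ℤ (W'⁄Qb).Point p), L ≠ ⊥ ∧ L ≠ ⊤ ∧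
    (∀ τ ∈ A.inertiaSubgroupIn ℚ, ∀ x : Submodule.torsionBy ℤ (W'⁄Qb).Point p, τ • x - x ∈ L) ∧
    (∀ τ ∈ A.inertiaSubgroupIn ℚ, ∀ c : ℕ, IsCycloExp p τ c →
      ∀ v ∈ L, τ • v = (c : ZMod p) • v)

/-- `HasChiLine` for the generic fibre of an integral model, in terms of `Tors W p`. -/
theorem hasChiLine_map_iff (W : WeierstrassCurve ℤ) (p : ℕ) (A : ValuationSubring Qb) :
    HasChiLine (W.map (Int.castRingHom ℚ)) p A ↔
      ∃ L : Submodule (ZMod p) (Tors W p), L ≠ ⊥ ∧ L ≠ ⊤ ∧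
        (∀ τ ∈ A.inertiaSubgroupIn ℚ, ∀ x : Tors W p, τ • x - x ∈ L) ∧
        (∀ τ ∈ A.inertiaSubgroupIn ℚ, ∀ c : ℕ, IsCycloExp p τ c →
          ∀ v ∈ L, τ • v = (c : ZMod p) • v) := Iff.rfl

/-- the general statement over `ℚ`, for a curve with an integral model. -/
theorem hasChiLine_of_close {W : WeierstrassCurve ℤ} {W' : WeierstrassCurve ℚ}
    (hW : W.map (Int.castRingHom ℚ) = W') {p : ℕ} [hp : Fact p.Prime]
    (hΔ : W.Δ ≠ 0) (hrel : RelQbar W) (hp2 : p ≠ 2)
    (hirr : GaloisRepIsIrreducible (K := Qb) ℚ W' p)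
    {A : ValuationSubring Qb} (hA : A.LiesOverPrime p)
    (L : Submodule (ZMod p) (Submodule.torsionBy ℤ (W'⁄Qb).Point p)) (htop : L ≠ ⊤)
    (hclose : ∀ τ ∈ A.inertiaSubgroupIn ℚ,
      ∀ x : Submodule.torsionBy ℤ (W'⁄Qb).Point p, τ • x - x ∈ L) :
    HasChiLine W' p A := by
  subst hW
  obtain ⟨hbot, hchi⟩ := chi_of_close hΔ hrel hp2 hirr hA L htop hclose
  exact ⟨L, hbot, htop, hclose, hchi⟩

section Frey

open Fermat.Agent.S13

variable (P : FreyPackage)

theorem freyCurveInt_Δ_ne_zero : P.freyCurveInt.Δ ≠ 0 :=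
  Fermat.Agent.Frey.IntModel.Δ_ne_zero P

/-- **(E1) for the Frey curve** at a place `A ∣ p`, with `L = V1 P A` the `p`-torsion in the
kernel of reduction; the hypothesis `V1 ≠ ⊤` holds when `p ∣ abc`. -/
theorem frey_hasChiLine (hrel : RelQbar P.freyCurveInt)
    (hirr : GaloisRepIsIrreducible (K := Qb) ℚ P.freyCurve P.p)
    {A : ValuationSubring Qb} (hA : A.LiesOverPrime P.p) (htop : FreyE1.V1 P A ≠ ⊤) :
    HasChiLine P.freyCurve P.p A := by
  have : Fact P.p.Prime := ⟨P.pp⟩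
  have hp2 : P.p ≠ 2 := by have := P.hp5; omega
  exact hasChiLine_of_close (Fermat.Agent.Frey.IntModel.map_freyCurveInt P)
    (freyCurveInt_Δ_ne_zero P) hrel hp2 hirr hA (FreyE1.V1 P A) htop
    (fun τ hτ x => FreyE1.close_at_p P hA hτ x)

/-- the line is `V1 P A` (explicit form). -/
theorem frey_V1_chi (hrel : RelQbar P.freyCurveInt)
    (hirr : GaloisRepIsIrreducible (K := Qb) ℚ P.freyCurve P.p)
    {A : ValuationSubring Qb} (hA : A.LiesOverPrime P.p) (htop : FreyE1.V1 P A ≠ ⊤) :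
    FreyE1.V1 P A ≠ ⊥ ∧ ∀ τ ∈ A.inertiaSubgroupIn ℚ, ∀ c : ℕ, IsCycloExp P.p τ c →
      ∀ v ∈ FreyE1.V1 P A, τ • v = (c : ZMod P.p) • v := by
  have : Fact P.p.Prime := ⟨P.pp⟩
  have hp2 : P.p ≠ 2 := by have := P.hp5; omega
  have key : ∀ (W : WeierstrassCurve ℤ) (W' : WeierstrassCurve ℚ)
      (_ : W.map (Int.castRingHom ℚ) = W') (_ : W.Δ ≠ 0) (_ : RelQbar W)
      (_ : GaloisRepIsIrreducible (K := Qb) ℚ W' P.p)
      (L : Submodule (ZMod P.p) (Submodule.torsionBy ℤ (W'⁄Qb).Point P.p)) (_ : L ≠ ⊤)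
      (_ : ∀ τ ∈ A.inertiaSubgroupIn ℚ,
        ∀ x : Submodule.torsionBy ℤ (W'⁄Qb).Point P.p, τ • x - x ∈ L),
      L ≠ ⊥ ∧ ∀ τ ∈ A.inertiaSubgroupIn ℚ, ∀ c : ℕ, IsCycloExp P.p τ c →
        ∀ v ∈ L, τ • v = (c : ZMod P.p) • v := by
    rintro W W' rfl hΔ hrel' hirr' L htop' hclose'
    exact chi_of_close hΔ hrel' hp2 hirr' hA L htop' hclose'
  exact key _ _ (Fermat.Agent.Frey.IntModel.map_freyCurveInt P) (freyCurveInt_Δ_ne_zero P) hrel
    hirr (FreyE1.V1 P A) htop (fun τ hτ x => FreyE1.close_at_p P hA hτ x)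

/-- **(E1) for the integral Frey model**, i.e. on `Tors P.freyCurveInt P.p`. -/
theorem freyInt_hasChiLine (hrel : RelQbar P.freyCurveInt)
    (hirr : GaloisRepIsIrreducible (K := Qb) ℚ P.freyCurve P.p)
    {A : ValuationSubring Qb} (hA : A.LiesOverPrime P.p) (htop : FreyE1.V1 P A ≠ ⊤) :
    HasChiLine (P.freyCurveInt.map (Int.castRingHom ℚ)) P.p A := by
  rw [Fermat.Agent.Frey.IntModel.map_freyCurveInt]
  exact frey_hasChiLine P hrel hirr hA htop

end Frey

end Fermat.Agent.M1.ESide.ChiLine58
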