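/-
M1 / chapter ES (E-side), brick (E1) for the Frey curve, unconditional form (helper58).

`ChiLine58` (the `χ`-action from `det ρ = χ`) + `V1Line20` (helper20: `V1 ≠ ⊤` at `p ∣ abc`):
at a prime `p ∣ abc` and a place `A ∣ p` of `ℚ̄`, the `p`-torsion `V1` in the kernel of reduction
is a line in `E[p]`, stable under the decomposition group `D_A`, with `(τ - 1) E[p] ⊆ V1` and
`τ = χ_p(τ)` on `V1` for all `τ` in the inertia group `I_A`.
-/
import Mathlib
import Fermat.Agent.M1.ESide.ChiLine58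
import Fermat.Agent.M1.ES.V1Line20

set_option autoImplicit false

open WeierstrassCurve WeierstrassCurve.Affine WeierstrassCurve.Affine.Point

namespace Fermat.Agent.M1.ESide.ChiLineFrey58

open Fermat.Agent.ES.Q58.TraceCong20 (RelQbar)
open Fermat.Agent.S52.TopWiring84 (Tors)
open Fermat.Agent.S52.C.DetCyclo47 (IsCycloExp)
open Fermat.Agent.M1.ESide.ChiLine58
open Fermat.Agent.S13
open Fermat.Agent.S05

local notation "Qb" => AlgebraicClosure ℚ
local notation "GQ" => (AlgebraicClosure ℚ ≃ₐ[ℚ] AlgebraicClosure ℚ)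

/-- **(E1), with stability under the decomposition group**: a line `L` in `W'[p]`, stable under
`D_A`, with inertia at `A` acting trivially on `W'[p] / L` and through the cyclotomic character
on `L`. -/
def HasStableChiLine (W' : WeierstrassCurve ℚ) (p : ℕ) (A : ValuationSubring Qb) : Prop :=
  ∃ L : Submodule (ZMod p) (Submodule.torsionBy ℤ (W'⁄Qb).Point p), L ≠ ⊥ ∧ L ≠ ⊤ ∧
    (∀ σ ∈ A.decompositionSubgroup ℚ, ∀ v ∈ L, σ • v ∈ L) ∧
    (∀ τ ∈ A.inertiaSubgroupIn ℚ, ∀ x : Submodule.torsionBy ℤ (W'⁄Qb).Point p, τ • x - x ∈ L) ∧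
    (∀ τ ∈ A.inertiaSubgroupIn ℚ, ∀ c : ℕ, IsCycloExp p τ c →
      ∀ v ∈ L, τ • v = (c : ZMod p) • v)

theorem HasStableChiLine.hasChiLine {W' : WeierstrassCurve ℚ} {p : ℕ} {A : ValuationSubring Qb}
    (h : HasStableChiLine W' p A) : HasChiLine W' p A := by
  obtain ⟨L, h1, h2, -, h4, h5⟩ := h
  exact ⟨L, h1, h2, h4, h5⟩

/-- `HasStableChiLine` for the generic fibre of an integral model, in terms of `Tors W p`. -/
theorem hasStableChiLine_map_iff (W : WeierstrassCurve ℤ) (p : ℕ) (A : ValuationSubring Qb) :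
    HasStableChiLine (W.map (Int.castRingHom ℚ)) p A ↔
      ∃ L : Submodule (ZMod p) (Tors W p), L ≠ ⊥ ∧ L ≠ ⊤ ∧
        (∀ σ ∈ A.decompositionSubgroup ℚ, ∀ v ∈ L, σ • v ∈ L) ∧
        (∀ τ ∈ A.inertiaSubgroupIn ℚ, ∀ x : Tors W p, τ • x - x ∈ L) ∧
        (∀ τ ∈ A.inertiaSubgroupIn ℚ, ∀ c : ℕ, IsCycloExp p τ c →
          ∀ v ∈ L, τ • v = (c : ZMod p) • v) := Iff.rfl

variable (P : FreyPackage)

/-- the decomposition group of `A` preserves the kernel of reduction `V1 P A`. -/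
theorem decomposition_smul_mem_V1 {A : ValuationSubring Qb} {σ : GQ}
    (hσ : σ ∈ A.decompositionSubgroup ℚ)
    {x : Submodule.torsionBy ℤ (P.freyCurve⁄Qb).Point P.p} (hx : x ∈ FreyE1.V1 P A) :
    σ • x ∈ FreyE1.V1 P A := by
  rw [FreyE1.mem_V1] at hx ⊢
  change Kernel.InE1 A.valuation (σ • (x : (P.freyCurve⁄Qb).Point))
  rcases hx with h0 | ⟨x₀, y₀, h, he, hlt⟩
  · rw [h0]
    exact Kernel.inE1_zero _
  · rw [he]
    have h' : (P.freyCurve⁄Qb).Nonsingular (σ x₀) (σ y₀) :=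
      (Affine.baseChange_nonsingular (W := P.freyCurve) (f := σ.toAlgHom)
        σ.toAlgHom.injective x₀ y₀).mpr h
    have hs : σ • (Point.some x₀ y₀ h : (P.freyCurve⁄Qb).Point) =
        Point.some (σ x₀) (σ y₀) h' := rfl
    rw [hs, Kernel.inE1_some]
    rw [Inertia.valuation_apply_of_mem_decomposition hσ x₀]
    exact hlt

/-- **(E1) for the Frey curve at `p ∣ abc`**, on `E[p] = torsionBy ℤ (P.freyCurve⁄ℚ̄).Point p`;
the line is `V1 P A`. -/
theorem frey_hasStableChiLine (hrel : RelQbar P.freyCurveInt)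
    (hirr : GaloisRepIsIrreducible (K := Qb) ℚ P.freyCurve P.p)
    {A : ValuationSubring Qb} (hA : A.LiesOverPrime P.p)
    (hmult : (P.p : ℤ) ∣ P.a * P.b * P.c) : HasStableChiLine P.freyCurve P.p A := by
  have htop := Fermat.Agent.M1.ES.V1Line20.V1_ne_top P hA hmult
  obtain ⟨hbot, hchi⟩ := frey_V1_chi P hrel hirr hA htop
  exact ⟨FreyE1.V1 P A, hbot, htop, fun σ hσ v hv => decomposition_smul_mem_V1 P hσ hv,
    fun τ hτ x => FreyE1.close_at_p P hA hτ x, hchi⟩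

theorem frey_hasChiLine_of_dvd (hrel : RelQbar P.freyCurveInt)
    (hirr : GaloisRepIsIrreducible (K := Qb) ℚ P.freyCurve P.p)
    {A : ValuationSubring Qb} (hA : A.LiesOverPrime P.p)
    (hmult : (P.p : ℤ) ∣ P.a * P.b * P.c) : HasChiLine P.freyCurve P.p A :=
  (frey_hasStableChiLine P hrel hirr hA hmult).hasChiLine

/-- **(E1) for the integral Frey model at `p ∣ abc`**, i.e. on `Tors P.freyCurveInt P.p`
(the type used by `DetCyclo47`, `NonEis47`, `EndGame47`). -/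
theorem freyInt_hasStableChiLine (hrel : RelQbar P.freyCurveInt)
    (hirr : GaloisRepIsIrreducible (K := Qb) ℚ P.freyCurve P.p)
    {A : ValuationSubring Qb} (hA : A.LiesOverPrime P.p)
    (hmult : (P.p : ℤ) ∣ P.a * P.b * P.c) :
    HasStableChiLine (P.freyCurveInt.map (Int.castRingHom ℚ)) P.p A := by
  rw [Fermat.Agent.Frey.IntModel.map_freyCurveInt]
  exact frey_hasStableChiLine P hrel hirr hA hmult

/-- the same, unfolded: the literal (E1) input of the glue on `Tors P.freyCurveInt P.p`. -/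
theorem freyInt_exists_chi_line (hrel : RelQbar P.freyCurveInt)
    (hirr : GaloisRepIsIrreducible (K := Qb) ℚ P.freyCurve P.p)
    {A : ValuationSubring Qb} (hA : A.LiesOverPrime P.p)
    (hmult : (P.p : ℤ) ∣ P.a * P.b * P.c) :
    ∃ L : Submodule (ZMod P.p) (Tors P.freyCurveInt P.p), L ≠ ⊥ ∧ L ≠ ⊤ ∧
      (∀ σ ∈ A.decompositionSubgroup ℚ, ∀ v ∈ L, σ • v ∈ L) ∧
      (∀ τ ∈ A.inertiaSubgroupIn ℚ, ∀ x : Tors P.freyCurveInt P.p, τ • x - x ∈ L) ∧
      (∀ τ ∈ A.inertiaSubgroupIn ℚ, ∀ c : ℕ, IsCycloExp P.p τ c →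
        ∀ v ∈ L, τ • v = (c : ZMod P.p) • v) :=
  (hasStableChiLine_map_iff _ _ _).mp (freyInt_hasStableChiLine P hrel hirr hA hmult)

/-- the irreducibility hypothesis of S44 in the form used for the integral model. -/
theorem freyInt_modRepIsIrreducible
    (hirr : GaloisRepIsIrreducible (K := Qb) ℚ P.freyCurve P.p) :
    P.freyCurveInt.ModRepIsIrreducible P.p := by
  unfold WeierstrassCurve.ModRepIsIrreducible
  rw [Fermat.Agent.Frey.IntModel.map_freyCurveInt]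
  exact hirr

/-- **The element `τ₀` of the end game**: `τ₀ ∈ I_A` with `χ_p(τ₀) = 2 ≠ 1` and a nonzero fixed
vector in `Tors P.freyCurveInt P.p` (so `ρ(τ₀) ∼ diag(1, 2)`). -/
theorem freyInt_exists_tau0 (hrel : RelQbar P.freyCurveInt)
    (hirr : GaloisRepIsIrreducible (K := Qb) ℚ P.freyCurve P.p)
    {A : ValuationSubring Qb} (hA : A.LiesOverPrime P.p)
    (hmult : (P.p : ℤ) ∣ P.a * P.b * P.c) :
    ∃ τ₀ ∈ A.inertiaSubgroupIn ℚ, IsCycloExp P.p τ₀ 2 ∧ ((2 : ℕ) : ZMod P.p) ≠ 1 ∧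
      ∃ v : Tors P.freyCurveInt P.p, v ≠ 0 ∧ τ₀ • v = v := by
  have : Fact P.p.Prime := ⟨P.pp⟩
  have hp2 : P.p ≠ 2 := by have := P.hp5; omega
  obtain ⟨L, -, htop, -, h1, h2⟩ := freyInt_exists_chi_line P hrel hirr hA hmult
  obtain ⟨τ₀, hτ₀, hc⟩ := exists_inertia_two (p := P.p) hp2 hA
  refine ⟨τ₀, hτ₀, hc, two_ne_one_zmod, ?_⟩
  -- a fixed vector: `w ∉ L`, `l := τ₀ w - w ∈ L`, `τ₀ l = 2 l`; then `τ₀ w - 2 w` is fixed
  obtain ⟨w, hw⟩ : ∃ w : Tors P.freyCurveInt P.p, w ∉ L := by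
    by_contra hcon
    push Not at hcon
    exact htop (eq_top_iff.mpr fun x _ => hcon x)
  have hlL : τ₀ • w - w ∈ L := h1 τ₀ hτ₀ w
  have hfl : τ₀ • (τ₀ • w - w) = ((2 : ℕ) : ZMod P.p) • (τ₀ • w - w) := h2 τ₀ hτ₀ 2 hc _ hlL
  refine ⟨τ₀ • w - ((2 : ℕ) : ZMod P.p) • w, ?_, ?_⟩
  · intro h0
    apply hw
    have h3 : w = τ₀ • w - w := by
      have : τ₀ • w - w = ((2 : ℕ) : ZMod P.p) • w - w := by rw [sub_eq_zero.mp h0]
      rw [this]
      push_cast
      module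
    rw [h3]
    exact hlL
  · have hsm : τ₀ • (((2 : ℕ) : ZMod P.p) • w) = ((2 : ℕ) : ZMod P.p) • (τ₀ • w) := by
      rw [Nat.cast_smul_eq_nsmul, Nat.cast_smul_eq_nsmul, smul_comm]
    rw [smul_sub, hsm]
    rw [smul_sub] at hfl
    have : τ₀ • τ₀ • w = τ₀ • w + ((2 : ℕ) : ZMod P.p) • (τ₀ • w - w) := by
      rw [← hfl]; abel
    rw [this]
    generalize τ₀ • w = a
    module

end Fermat.Agent.M1.ESide.ChiLineFrey58
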